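import Fermat.Agent.ToralEquidistribution.Main
import Mathlib.MeasureTheory.Function.LpSpace.Basic
import Mathlib.MeasureTheory.Function.L2Space

/-!
# Mixing toral endomorphisms

The pairing of two characters of which one is moved along the orbit is eventually zero; both sides
are continuous in `L²`.
-/

set_option autoImplicit false

noncomputable section

namespace FA.ToralZeta

open FA.ToralEntropy FA.ToralEquidistribution FA.ToralPeriodic UnitAddTorus Matrix Filter Topology
  MeasureTheory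
open scoped InnerProductSpace

variable {ι : Type*} [Fintype ι] [DecidableEq ι]

theorem orbit_injective (A : Matrix ι ι ℤ) (hA : A.det ≠ 0)
    (h1 : ∀ z ∈ A.charpoly.aroots ℂ, ∀ m : ℕ, 0 < m → z ^ m ≠ 1) {k : ι → ℤ} (hk : k ≠ 0) :
    Function.Injective fun j : ℕ => k ᵥ* A ^ j := by
  intro i j hij
  by_contra hne
  wlog hlt : i < j generalizing i j
  · exact this hij.symm (Ne.symm hne) (lt_of_le_of_ne (not_lt.1 hlt) (Ne.symm hne))
  obtain ⟨m, rfl⟩ := Nat.exists_eq_add_of_le hlt.le
  have hdet : ((A ^ m - 1) * A ^ i).det ≠ 0 := by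
    rw [det_mul, det_pow]
    refine mul_ne_zero ((det_pow_sub_one_ne_zero_iff A (by omega)).2 fun z hz => ?_)
      (pow_ne_zero _ hA)
    exact h1 z hz m (by omega)
  refine hk (by_contra fun hk0 => hdet (exists_vecMul_eq_zero_iff.1 ⟨k, hk0, ?_⟩))
  rw [sub_mul, one_mul, ← pow_add, vecMul_sub, Nat.add_comm m i, sub_eq_zero]
  exact hij.symm

/-- Convergence on a set with dense span of uniformly bounded functionals. -/
theorem tendsto_of_dense {E : Type*} [NormedAddCommGroup E] [NormedSpace ℂ E]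
    {φ : ℕ → E →L[ℂ] ℂ} {ψ : E →L[ℂ] ℂ} {S : Set E}
    (hS : (Submodule.span ℂ S).topologicalClosure = ⊤) {C : ℝ} (hC : ∀ n, ‖φ n‖ ≤ C)
    (h : ∀ e ∈ S, Tendsto (fun n => φ n e) atTop (𝓝 (ψ e))) (x : E) :
    Tendsto (fun n => φ n x) atTop (𝓝 (ψ x)) := by
  have hspan : ∀ g ∈ Submodule.span ℂ S, Tendsto (fun n => φ n g) atTop (𝓝 (ψ g)) := by
    intro g hg
    induction hg using Submodule.span_induction with
    | mem e he => exact h e he
    | zero => simp
    | add u v _ _ hu hv => simpa using hu.add hv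
    | smul c u _ hu => simpa using hu.const_mul c
  rw [Metric.tendsto_atTop]
  intro ε hε
  have hC0 : 0 ≤ C := (norm_nonneg (φ 0)).trans (hC 0)
  set δ := ε / (3 * (C + ‖ψ‖ + 1))
  have hδ : 0 < δ := by positivity
  obtain ⟨g, hg, hxg⟩ := Metric.mem_closure_iff.1
    (show x ∈ (Submodule.span ℂ S).topologicalClosure by rw [hS]; trivial) δ hδ
  obtain ⟨N, hN⟩ := Metric.tendsto_atTop.1 (hspan g hg) (ε / 3) (by positivity)
  refine ⟨N, fun n hn => ?_⟩
  have h' := hN n hn
  rw [dist_eq_norm] at h' hxg ⊢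
  have hb : ∀ L : E →L[ℂ] ℂ, ‖L‖ ≤ C + ‖ψ‖ + 1 → ‖L (x - g)‖ ≤ ε / 3 := fun L hL => by
    refine (L.le_opNorm _).trans
      ((mul_le_mul hL hxg.le (norm_nonneg _) (by positivity)).trans_eq ?_)
    simp only [δ]
    field_simp
  calc ‖φ n x - ψ x‖ = ‖φ n (x - g) + (φ n g - ψ g) - ψ (x - g)‖ := by
        rw [map_sub, map_sub]; ring_nf
    _ ≤ ‖φ n (x - g)‖ + ‖φ n g - ψ g‖ + ‖ψ (x - g)‖ :=
        (norm_sub_le _ _).trans (add_le_add (norm_add_le _ _) le_rfl)
    _ < ε := by
        linarith [hb (φ n) (by linarith [hC n, norm_nonneg ψ]),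
          hb ψ (by linarith [norm_nonneg (φ 0), hC 0])]

/-- **Strong mixing.** -/
theorem tendsto_mixing {A : Matrix ι ι ℤ} (hA : A.det ≠ 0)
    (h1 : ∀ z ∈ A.charpoly.aroots ℂ, ∀ m : ℕ, 0 < m → z ^ m ≠ 1)
    {s t : Set (ι → UnitAddCircle)} (hs : MeasurableSet s) (ht : MeasurableSet t) :
    Tendsto (fun n : ℕ => volume.real (s ∩ (toral A)^[n] ⁻¹' t)) atTop
      (𝓝 (volume.real s * volume.real t)) := by
  classical
  have hT := measurePreserving_toral hA
  rw [volume_eq_pi] at hT ⊢
  set μ : Measure (UnitAddTorus ι) := Measure.pi fun _ => AddCircle.haarAddCircle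
  let e : (ι → ℤ) → Lp ℂ 2 μ := mFourierLp 2
  let U : ℕ → Lp ℂ 2 μ →L[ℂ] Lp ℂ 2 μ := fun n =>
    (Lp.compMeasurePreservingₗᵢ ℂ (toral A)^[n] (hT.iterate n)).toContinuousLinearMap
  have hUe : ∀ n k, U n (e k) = e (k ᵥ* A ^ n) := fun n k => by
    refine Lp.ext ?_
    filter_upwards [Lp.coeFn_compMeasurePreserving (e k) (hT.iterate n),
      coeFn_mFourierLp (d := ι) 2 (k ᵥ* A ^ n),
      (hT.iterate n).quasiMeasurePreserving.ae_eq_comp (coeFn_mFourierLp (d := ι) 2 k)]
      with x hx hx' hx''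
    refine hx.trans ?_
    rw [hx'']
    refine Eq.trans ?_ hx'.symm
    rw [Function.comp_apply, iterate_toral, mFourier_toral]
  have hU : ∀ n, ‖U n‖ ≤ 1 := fun n => LinearIsometry.norm_toContinuousLinearMap_le _
  have hdense : (Submodule.span ℂ (Set.range e)).topologicalClosure = ⊤ :=
    span_mFourierLp_closure_eq_top (by simp)
  have horth : ∀ k l, (⟪e k, e l⟫_ℂ) = if k = l then 1 else 0 :=
    orthonormal_iff_ite.1 orthonormal_mFourier
  have hchar : ∀ k l, Tendsto (fun n => ⟪e l, U n (e k)⟫_ℂ) atTop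
      (𝓝 (⟪e l, e 0⟫_ℂ * ⟪e 0, e k⟫_ℂ)) := by
    intro k l
    simp only [hUe, horth]
    refine tendsto_nhds_of_eventually_eq ?_
    rcases eq_or_ne k 0 with rfl | hk
    · exact Eventually.of_forall fun n => by simp
    · have hne := (orbit_injective A hA h1 hk).tendsto_cofinite.eventually
        (Set.Finite.compl_mem_cofinite (Set.finite_singleton l))
      rw [Nat.cofinite_eq_atTop] at hne
      filter_upwards [hne] with n hn
      rw [if_neg (fun h => hn h.symm), if_neg hk.symm, mul_zero]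
  have hfirst : ∀ (f : Lp ℂ 2 μ) l, Tendsto (fun n => ⟪e l, U n f⟫_ℂ) atTop
      (𝓝 (⟪e l, e 0⟫_ℂ * ⟪e 0, f⟫_ℂ)) := fun f l =>
    tendsto_of_dense (φ := fun n => (innerSL ℂ (e l)).comp (U n))
      (ψ := ⟪e l, e 0⟫_ℂ • innerSL ℂ (e 0)) hdense (C := ‖e l‖)
      (fun n => (ContinuousLinearMap.opNorm_comp_le _ _).trans (by
        rw [innerSL_apply_norm]
        exact (mul_le_mul_of_nonneg_left (hU n) (norm_nonneg _)).trans_eq (mul_one _)))
      (by rintro _ ⟨k, rfl⟩; exact hchar k l) f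
  have hall : ∀ f g : Lp ℂ 2 μ, Tendsto (fun n => ⟪g, U n f⟫_ℂ) atTop
      (𝓝 (⟪g, e 0⟫_ℂ * ⟪e 0, f⟫_ℂ)) := by
    intro f g
    have h := tendsto_of_dense (φ := fun n => innerSL ℂ (U n f))
      (ψ := ⟪f, e 0⟫_ℂ • innerSL ℂ (e 0)) hdense (C := ‖f‖)
      (fun n => by
        rw [innerSL_apply_norm]
        exact ((U n).le_opNorm f).trans
          ((mul_le_mul_of_nonneg_right (hU n) (norm_nonneg f)).trans_eq (one_mul _)))
      (by
        rintro _ ⟨l, rfl⟩
        have h' := ((Complex.continuous_conj.tendsto _).comp (hfirst f l))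
        simpa [Function.comp_def, inner_conj_symm, mul_comm] using h') g
    have h' := (Complex.continuous_conj.tendsto _).comp h
    simpa [Function.comp_def, inner_conj_symm, mul_comm] using h'
  let ind : ∀ {r : Set (UnitAddTorus ι)}, MeasurableSet r → Lp ℂ 2 μ := fun hr =>
    indicatorConstLp 2 hr (measure_ne_top μ _) 1
  have he0 : e 0 = ind MeasurableSet.univ := by
    refine Lp.ext ?_
    filter_upwards [coeFn_mFourierLp (d := ι) 2 0, indicatorConstLp_coeFn (μ := μ)
      (p := 2) (hs := MeasurableSet.univ) (hμs := measure_ne_top μ _) (c := (1 : ℂ))] with x hx hx'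
    refine Eq.trans ?_ hx'.symm
    exact hx.trans (by simp [mFourier_zero])
  have hinner : ∀ {r r' : Set (UnitAddTorus ι)} (hr : MeasurableSet r) (hr' : MeasurableSet r'),
      ⟪ind hr, ind hr'⟫_ℂ = (μ.real (r ∩ r') : ℂ) := fun hr hr' =>
    L2.inner_indicatorConstLp_one_indicatorConstLp_one hr hr' _ _
  have h := hall (ind ht) (ind hs)
  have hUind : ∀ n, U n (ind ht) = ind (ht.preimage (hT.iterate n).measurable) := fun n =>
    Lp.indicatorConstLp_compMeasurePreserving ht _ _ (hT.iterate n)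
  simp only [hUind, he0, hinner, Set.inter_univ, Set.univ_inter] at h
  rw [← Complex.ofReal_mul] at h
  exact (Complex.continuous_re.tendsto _).comp h

omit [DecidableEq ι] in
/-- Mixing implies ergodicity. -/
theorem ergodic_of_mixing {A : Matrix ι ι ℤ}
    (hT : MeasurePreserving (toral A) (volume : Measure (ι → UnitAddCircle)) volume)
    (h : ∀ s t : Set (ι → UnitAddCircle), MeasurableSet s → MeasurableSet t →
      Tendsto (fun n : ℕ => volume.real (s ∩ (toral A)^[n] ⁻¹' t)) atTop
        (𝓝 (volume.real s * volume.real t))) :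
    Ergodic (toral A) (volume : Measure (ι → UnitAddCircle)) := by
  have := isProbability_volume (ι := ι)
  refine ⟨hT, ⟨fun s hs hsA => ?_⟩⟩
  have hn : ∀ n, (toral A)^[n] ⁻¹' s = s := fun n => by
    induction n with
    | zero => rfl
    | succ n ih => rw [Function.iterate_succ, Set.preimage_comp, ih, hsA]
  have h' := h s s hs hs
  simp only [hn, Set.inter_self] at h'
  have heq : volume.real s = volume.real s * volume.real s :=
    tendsto_nhds_unique tendsto_const_nhds h'
  rw [eventuallyConst_set]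
  rcases mul_eq_zero.1 (show volume.real s * (volume.real s - 1) = 0 by rw [mul_sub, mul_one,
    ← heq, sub_self]) with h0 | h0
  · right
    rw [measureReal_eq_zero_iff] at h0
    exact measure_eq_zero_iff_ae_notMem.1 h0
  · left
    refine (mem_ae_iff_prob_eq_one hs).2 ?_
    rw [sub_eq_zero, measureReal_def, ENNReal.toReal_eq_one_iff] at h0
    exact h0

end FA.ToralZeta

end
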