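import Fermat.Agent.ToralZeta.Sign
import Fermat.Agent.DworkRationality.Main

/-!
# The zeta function of a toral endomorphism is rational

The counts are differences of geometric sequences in an algebraically closed `p`-adic field, so the
zeta series is a quotient of entire series there; it has integral coefficients of at most geometric
growth, so it is rational by Hankel determinants.
-/

set_option autoImplicit false

noncomputable section

namespace FA.ToralZeta

open FA.ToralEntropy FA.ToralPeriodic FA.DworkRationality Polynomial Matrix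

variable {ι : Type*} [Fintype ι] [DecidableEq ι]

theorem det_pow_sub_one_field {K : Type*} [Field K] [IsAlgClosed K] (A : Matrix ι ι ℤ) {n : ℕ}
    (hn : 0 < n) :
    (((A ^ n - 1).det : ℤ) : K) =
      (((A.charpoly.map (Int.castRingHom K))).roots.map fun z => z ^ n - 1).prod := by
  set M := A.map (Int.castRingHom K)
  set g : K[X] := X ^ n - C 1
  set D : K[X] →* K := Matrix.detMonoidHom.comp (aeval M).toRingHom.toMonoidHom
  have hone : ∀ w : K, D (X - C w) = (M.charpoly.roots.map fun z => z - w).prod := fun w => by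
    have h := M.eval_charpoly w
    rw [(IsAlgClosed.splits M.charpoly).eval_eq_prod_roots_of_monic M.charpoly_monic] at h
    change (aeval M (X - C w)).det = _
    rw [map_sub, aeval_X, aeval_C, Matrix.algebraMap_eq_diagonal,
      ← neg_sub (Matrix.diagonal _) M, Matrix.det_neg]
    refine Eq.trans (congrArg _ h.symm) ?_
    rw [← IsAlgClosed.card_roots_eq_natDegree.trans M.charpoly_natDegree_eq_dim,
      ← Multiset.card_map (fun x => w - x), ← Multiset.prod_map_neg]
    simp [Multiset.map_map]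
  have hdet : (aeval M g).det = (M.charpoly.roots.map fun z => g.eval z).prod := by
    conv_lhs => rw [(IsAlgClosed.splits g).eq_prod_roots_of_monic (monic_X_pow_sub_C 1 hn.ne')]
    show D _ = _
    rw [map_multiset_prod, Multiset.map_map]
    simp only [Function.comp_def, hone]
    rw [Multiset.prod_map_prod_map]
    refine congrArg Multiset.prod (Multiset.map_congr rfl fun z _ => ?_)
    rw [(IsAlgClosed.splits g).eval_eq_prod_roots_of_monic (monic_X_pow_sub_C 1 hn.ne')]
  simp only [g, M, map_sub, map_pow, aeval_X, map_one, eval_sub, eval_pow, eval_X, eval_one,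
    Matrix.charpoly_map] at hdet
  rw [← hdet, ← eq_intCast (Int.castRingHom K), RingHom.map_det, RingHom.mapMatrix_apply,
    Matrix.map_sub _ (map_sub _), Matrix.map_pow, Matrix.map_one _ (map_zero _) (map_one _)]

theorem isEntireQuot_prod {K : Type*} [NormedField K] [IsUltrametricDist K] (R : Multiset K) :
    ∀ c : K, IsEntireQuot fun n => c ^ n * (R.map fun z => z ^ n - 1).prod := by
  induction R using Multiset.induction_on with
  | empty => simpa using fun c => isEntireQuot_pow c
  | cons a R ih =>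
    intro c
    refine ((ih (c * a)).add (ih c).neg).congr fun n _ => ?_
    simp only [Pi.add_apply, Pi.neg_apply, Multiset.map_cons, Multiset.prod_cons, mul_pow]
    ring

variable (A : Matrix ι ι ℤ)

/-- The number of fixed points of the `n`-th iterate. -/
def fixCount (n : ℕ) : ℕ := Nat.card {x | (toral A)^[n] x = x}

omit [DecidableEq ι] in
theorem fixedCount_eq (n : ℕ) : fixedCount (toral A) n = fixCount A n := rfl

variable {A}

theorem periodicPts_finite (h : ∀ z ∈ A.charpoly.aroots ℂ, ∀ m : ℕ, 0 < m → z ^ m ≠ 1) :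
    ∀ s, s ≠ 0 → {x | Function.IsPeriodicPt (toral A) s x}.Finite := fun s hs =>
  (fixedPoints_finite_iff A).2 h s (Nat.pos_of_ne_zero hs)

theorem fixCount_eq (h : ∀ z ∈ A.charpoly.aroots ℂ, ∀ m : ℕ, 0 < m → z ^ m ≠ 1) {n : ℕ}
    (hn : 0 < n) : fixCount A n = (A ^ n - 1).det.natAbs :=
  (fixedPoints_card A ((det_pow_sub_one_ne_zero_iff A hn).2 fun z hz => h z hz n hn)).2

theorem exists_bound (h : ∀ z ∈ A.charpoly.aroots ℂ, ∀ m : ℕ, 0 < m → z ^ m ≠ 1) :
    ∃ R : ℕ, 1 ≤ R ∧ ∀ n, 0 < n → fixCount A n ≤ R ^ n := by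
  obtain ⟨R, hR⟩ := exists_nat_gt ((A.charpoly.aroots ℂ).map fun z => ‖z‖ + 1).prod
  refine ⟨max R 1, le_max_right _ _, fun n hn => ?_⟩
  have hprod : ((A ^ n - 1).det.natAbs : ℝ) ≤
      ((A.charpoly.aroots ℂ).map fun z => ‖z‖ + 1).prod ^ n := by
    rw [← Multiset.prod_map_pow, Nat.cast_natAbs, Int.cast_abs, ← Complex.norm_intCast,
      det_pow_sub_one A hn]
    generalize A.charpoly.aroots ℂ = S
    induction S using Multiset.induction_on with
    | empty => simp
    | cons a S ih =>
      rw [Multiset.map_cons, Multiset.prod_cons, Multiset.map_cons, Multiset.prod_cons, norm_mul]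
      refine mul_le_mul ((norm_sub_le _ _).trans ?_) ih (norm_nonneg _) (by positivity)
      rw [norm_one, norm_pow]
      calc ‖a‖ ^ n + 1 = ‖a‖ ^ n + 1 ^ n := by rw [one_pow]
        _ ≤ (‖a‖ + 1) ^ n := pow_add_pow_le (norm_nonneg a) zero_le_one hn.ne'
  rw [fixCount_eq h hn]
  have hnn : 0 ≤ ((A.charpoly.aroots ℂ).map fun z => ‖z‖ + 1).prod :=
    Multiset.prod_nonneg fun x hx => by
      obtain ⟨z, -, rfl⟩ := Multiset.mem_map.1 hx
      positivity
  have := hprod.trans (pow_le_pow_left₀ hnn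
    (hR.le.trans (show (R : ℝ) ≤ ((max R 1 : ℕ) : ℝ) by exact_mod_cast le_max_left R 1)) n)
  exact_mod_cast this

local instance : Fact (Nat.Prime 2) := ⟨Nat.prime_two⟩

open PowerSeries in
/-- **Rationality.** -/
theorem exists_rational_zeta (h : ∀ z ∈ A.charpoly.aroots ℂ, ∀ m : ℕ, 0 < m → z ^ m ≠ 1) :
    ∃ P Q : ℤ[X], P.coeff 0 = 1 ∧ Q.coeff 0 = 1 ∧
      zetaSeries (fun s => (fixCount A s : ℚ)) * ((Q.map (Int.castRingHom ℚ) : ℚ[X]) :
        PowerSeries ℚ) = ((P.map (Int.castRingHom ℚ) : ℚ[X]) : PowerSeries ℚ) := by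
  set N : ℕ → ℚ := fun s => (fixCount A s : ℚ) with hN
  choose z hz using exists_int_coeff_zetaSeries (T := toral A) (periodicPts_finite h)
  simp only [fixedCount_eq, ← hN] at hz
  have hzmap : PowerSeries.map (Int.castRingHom ℚ) (PowerSeries.mk z) = zetaSeries N := by
    ext k; simp [hz]
  have hz0 : z 0 = 1 := by
    have h0 := hz 0
    rw [PowerSeries.coeff_zero_eq_constantCoeff_apply, constantCoeff_zetaSeries] at h0
    exact_mod_cast h0.symm
  obtain ⟨R, hR1, hR⟩ := exists_bound h
  have hbound : ∀ k, |(z k : ℝ)| ≤ (R : ℝ) ^ k := fun k => by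
    have h' := abs_coeff_zetaSeries_le (N := N) (R := (R : ℚ)) (Nat.cast_nonneg _) (fun s hs => by
      rw [hN, Nat.abs_cast]
      exact_mod_cast hR s (Nat.pos_of_ne_zero hs)) k
    rw [hz] at h'
    simpa using (Rat.cast_le (K := ℝ)).2 h'
  obtain ⟨P, Q, hP, hQ, hP0, hQ0, hlog⟩ : IsEntireQuot fun s => (fixCount A s : ℂ_[2]) := by
    refine ((isEntireQuot_prod (A.charpoly.map (Int.castRingHom ℂ_[2])).roots
      ((-1) ^ negativeCount A)).zsmul ((-1) ^ innerCount A)).congr fun s hs => ?_
    have hs' := Nat.pos_of_ne_zero hs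
    rw [Pi.smul_apply, zsmul_eq_mul, fixCount_eq h hs', ← Int.cast_natCast,
      natAbs_det_pow_sub_one A hs', Int.cast_mul, det_pow_sub_one_field A hs']
    push_cast
    rw [pow_add, pow_mul']
    ring
  have hzC : PowerSeries.map (algebraMap ℚ ℂ_[2]) (zetaSeries N) =
      PowerSeries.mk fun k => (z k : ℂ_[2]) := by
    ext k; simp [hz]
  have hder : d⁄dX ℂ_[2] (PowerSeries.mk fun k => (z k : ℂ_[2])) =
      (PowerSeries.mk fun k => (z k : ℂ_[2])) * logSeries (fun s => (fixCount A s : ℂ_[2])) := by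
    have h' := congrArg (PowerSeries.map (algebraMap ℚ ℂ_[2])) (derivative_zetaSeries N)
    rw [map_mul, hzC] at h'
    convert h' using 1
    · rw [← hzC]
      ext j
      simp [PowerSeries.coeff_derivative]
    · congr 1
      ext j
      simp [logSeries, hN]
  have hmul := mul_eq_of_logDeriv hder (by
    rw [← PowerSeries.coeff_zero_eq_constantCoeff_apply, PowerSeries.coeff_mk, hz0, Int.cast_one])
    hP0 hQ0 hlog
  obtain ⟨P', Q', h1, h2, h3⟩ := rational_of_entire_quotient one_le_abs_mul_norm hz0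
    (show (1 : ℝ) ≤ R by exact_mod_cast hR1) hbound hP hQ hQ0 hmul
  refine ⟨P', Q', h1, h2, ?_⟩
  rw [← hzmap, Polynomial.polynomial_map_coe, Polynomial.polynomial_map_coe, ← map_mul, h3]

/-- **A linear recurrence.** -/
theorem exists_recurrence (h : ∀ z ∈ A.charpoly.aroots ℂ, ∀ m : ℕ, 0 < m → z ^ m ≠ 1) :
    ∃ E : LinearRecurrence ℤ, E.IsSolution fun n => (fixCount A (n + 1) : ℤ) := by
  obtain ⟨P, Q, hP, hQ, hPQ⟩ := exists_rational_zeta h
  exact exists_recurrence_powerSums (N := fixCount A) (monic_reverse hQ) (monic_reverse hP)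
    (exists_powerSums hP hQ hPQ)

open ArithmeticFunction ArithmeticFunction.Moebius in
/-- **The congruences of Gauss.** -/
theorem dvd_moebius_sum (h : ∀ z ∈ A.charpoly.aroots ℂ, ∀ m : ℕ, 0 < m → z ^ m ≠ 1) {n : ℕ}
    (hn : 0 < n) :
    (n : ℤ) ∣ ∑ x ∈ n.divisorsAntidiagonal, μ x.1 • (fixCount A x.2 : ℤ) := by
  classical
  have hfin := periodicPts_finite h
  have hfin' : ∀ d, d ≠ 0 → {x | Function.minimalPeriod (toral A) x = d}.Finite := fun d hd =>
    (hfin d hd).subset fun x hx => Function.isPeriodicPt_iff_minimalPeriod_dvd.2 (dvd_of_eq hx)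
  set b : ℕ → ℤ := fun d => if hd : d ≠ 0 then ((hfin' d hd).toFinset.card : ℤ) else 0
  have hcount : ∀ s > 0, ∑ d ∈ s.divisors, b d = (fixCount A s : ℤ) := fun s hs => by
    have hs0 : s ≠ 0 := hs.ne'
    rw [← fixedCount_eq, fixedCount, show Nat.card {x // Function.IsPeriodicPt (toral A) s x} =
      (hfin s hs0).toFinset.card from Nat.card_eq_card_finite_toFinset (hfin s hs0),
      Finset.card_eq_sum_card_fiberwise (f := Function.minimalPeriod (toral A)) (t := s.divisors)
        fun x hx => Nat.mem_divisors.2 ⟨Function.isPeriodicPt_iff_minimalPeriod_dvd.1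
          ((hfin s hs0).mem_toFinset.1 hx), hs0⟩, Nat.cast_sum]
    refine Finset.sum_congr rfl fun d hd => ?_
    have hd0 : d ≠ 0 := (Nat.pos_of_mem_divisors hd).ne'
    simp only [b, dif_pos hd0]
    congr 2
    ext x
    simp only [Finset.mem_filter, Set.Finite.mem_toFinset, Set.mem_ofPred_eq]
    exact ⟨fun h' => ⟨Function.isPeriodicPt_iff_minimalPeriod_dvd.2
      (h' ▸ Nat.dvd_of_mem_divisors hd), h'⟩, fun h' => h'.2⟩
  rw [sum_eq_iff_sum_smul_moebius_eq.1 hcount n hn]
  simp only [b, dif_pos hn.ne']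
  exact Int.natCast_dvd_natCast.2 (dvd_card_minimalPeriod _ hn.ne' (hfin' n hn.ne'))

end FA.ToralZeta

end
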