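import Fermat.Agent.ToralPeriodic.Main
import Mathlib.Analysis.Complex.Basic

/-!
# The sign of `det (A ^ n - 1)`

Pairs of conjugate eigenvalues contribute squares of absolute values, so the sign is read off the
real eigenvalues.
-/

set_option autoImplicit false

noncomputable section

namespace FA.ToralZeta

open Polynomial ComplexConjugate

variable {ι : Type*} [Fintype ι] [DecidableEq ι]

open scoped Classical in
/-- The number of real eigenvalues in `[-1, 1)`. -/
def innerCount (A : Matrix ι ι ℤ) : ℕ :=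
  (A.charpoly.aroots ℂ).countP fun z => z.im = 0 ∧ -1 ≤ z.re ∧ z.re < 1

open scoped Classical in
/-- The number of real eigenvalues below `-1`. -/
def negativeCount (A : Matrix ι ι ℤ) : ℕ :=
  (A.charpoly.aroots ℂ).countP fun z => z.im = 0 ∧ z.re < -1

open scoped Classical in
/-- The sign of `z ^ n - 1` for a real `z`. -/
def rootSign (n : ℕ) (z : ℂ) : ℂ :=
  if z.im = 0 ∧ -1 ≤ z.re ∧ z.re < 1 then -1 else if z.im = 0 ∧ z.re < -1 then (-1) ^ n else 1

open scoped Classical in
theorem prod_rootSign (n : ℕ) (R : Multiset ℂ) :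
    (R.map (rootSign n)).prod = (-1) ^ (R.countP (fun z => z.im = 0 ∧ -1 ≤ z.re ∧ z.re < 1) +
      n * R.countP (fun z => z.im = 0 ∧ z.re < -1)) := by
  induction R using Multiset.induction_on with
  | empty => simp
  | cons a R ih =>
    rw [Multiset.map_cons, Multiset.prod_cons, ih, Multiset.countP_cons, Multiset.countP_cons,
      rootSign]
    by_cases h1 : a.im = 0 ∧ -1 ≤ a.re ∧ a.re < 1
    · rw [if_pos h1, if_pos h1, if_neg fun h2 => absurd h1.2.1 (not_le.2 h2.2)]
      ring
    · rw [if_neg h1, if_neg h1]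
      by_cases h2 : a.im = 0 ∧ a.re < -1
      · rw [if_pos h2, if_pos h2]
        ring
      · rw [if_neg h2, if_neg h2]
        ring

/-- **The sign.** -/
theorem natAbs_det_pow_sub_one (A : Matrix ι ι ℤ) {n : ℕ} (hn : 0 < n) :
    ((A ^ n - 1).det.natAbs : ℤ) =
      (-1) ^ (innerCount A + n * negativeCount A) * (A ^ n - 1).det := by
  classical
  set R := A.charpoly.aroots ℂ with hR
  set g : ℂ → ℂ := fun z => rootSign n z * (z ^ n - 1)
  have hconj : R.map (fun z => conj z) = R := by
    rw [hR, aroots_def]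
    refine ((IsAlgClosed.splits (A.charpoly.map (algebraMap ℤ ℂ))).roots_map
      (conj : ℂ →+* ℂ)).symm.trans ?_
    rw [Polynomial.map_map]
    congr 1
    exact congrArg (A.charpoly.map ·) (RingHom.ext_int _ _)
  have hneg : R.filter (fun z => z.im < 0) =
      (R.filter fun z => 0 < z.im).map (fun z => conj z) := by
    conv_lhs => rw [← hconj]
    rw [Multiset.filter_map]
    congr 1
    exact Multiset.filter_congr fun z _ => by simp
  have hsplit : R = R.filter (fun z => z.im = 0) +
      (R.filter (fun z => 0 < z.im) + R.filter (fun z => z.im < 0)) := by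
    ext a
    simp only [Multiset.count_add, Multiset.count_filter]
    rcases lt_trichotomy a.im 0 with h | h | h
    · simp [h, h.ne, h.le.not_gt]
    · simp [h]
    · simp [h, h.ne', h.le.not_gt]
  have hreal : ∀ S : Multiset ℂ, (∀ z ∈ S, z.im = 0) →
      ∃ x : ℝ, 0 ≤ x ∧ (S.map g).prod = x := by
    intro S
    induction S using Multiset.induction_on with
    | empty => exact fun _ => ⟨1, zero_le_one, by simp⟩
    | cons a S ih =>
      intro h
      obtain ⟨x, hx, hxS⟩ := ih fun z hz => h z (Multiset.mem_cons_of_mem hz)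
      obtain ⟨t, ht⟩ : ∃ t : ℝ, a = t :=
        ⟨a.re, Complex.ext rfl (by simp [h a (Multiset.mem_cons_self a S)])⟩
      obtain ⟨y, hy, hya⟩ : ∃ y : ℝ, 0 ≤ y ∧ g a = y := by
        subst ht
        simp only [g, rootSign, Complex.ofReal_im, Complex.ofReal_re, true_and]
        split_ifs with h1 h2
        · refine ⟨1 - t ^ n, sub_nonneg.2 ((le_abs_self _).trans ?_), by push_cast; ring⟩
          rw [abs_pow]
          exact pow_le_one₀ (abs_nonneg t) (abs_le.2 ⟨h1.1, h1.2.le⟩)
        · refine ⟨(-t) ^ n - (-1) ^ n, sub_nonneg.2 ?_, by push_cast; rw [neg_pow (t : ℂ)]; ring⟩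
          exact ((le_abs_self _).trans_eq (by simp)).trans
            (one_le_pow₀ (show (1 : ℝ) ≤ -t by linarith))
        · refine ⟨t ^ n - 1, sub_nonneg.2 (one_le_pow₀ ?_), by push_cast; ring⟩
          exact not_lt.1 fun hlt => h1 ⟨not_lt.1 h2, hlt⟩
      exact ⟨y * x, mul_nonneg hy hx, by
        rw [Multiset.map_cons, Multiset.prod_cons, hxS, hya, Complex.ofReal_mul]⟩
  obtain ⟨x, hx, hxR⟩ := hreal (R.filter fun z => z.im = 0) fun z hz => (Multiset.mem_filter.1 hz).2
  have hpair : ((R.filter fun z => z.im < 0).map g).prod =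
      conj ((R.filter fun z => 0 < z.im).map g).prod := by
    rw [hneg, map_multiset_prod, Multiset.map_map, Multiset.map_map]
    refine congrArg Multiset.prod (Multiset.map_congr rfl fun z hz => ?_)
    have him := (Multiset.mem_filter.1 hz).2
    simp [g, rootSign, him.ne']
  obtain ⟨y, hy, hyR⟩ : ∃ y : ℝ, 0 ≤ y ∧ (R.map g).prod = y := by
    refine ⟨x * Complex.normSq ((R.filter fun z => 0 < z.im).map g).prod,
      mul_nonneg hx (Complex.normSq_nonneg _), ?_⟩
    rw [hsplit, Multiset.map_add, Multiset.map_add, Multiset.prod_add, Multiset.prod_add, ← hsplit,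
      hxR, hpair, Complex.mul_conj]
    push_cast
    ring
  rw [Multiset.prod_map_mul, prod_rootSign, hR, ← FA.ToralPeriodic.det_pow_sub_one A hn] at hyR
  have hyD : ((((-1) ^ (innerCount A + n * negativeCount A) * (A ^ n - 1).det : ℤ)) : ℝ) = y := by
    rw [← Complex.ofReal_inj, ← hyR, Complex.ofReal_intCast, Int.cast_mul, Int.cast_pow,
      Int.cast_neg, Int.cast_one]
    rfl
  have hnn : 0 ≤ (-1) ^ (innerCount A + n * negativeCount A) * (A ^ n - 1).det := by
    exact_mod_cast (hyD ▸ hy : (0 : ℝ) ≤ _)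
  conv_rhs => rw [← abs_of_nonneg hnn, abs_mul, abs_pow, abs_neg, abs_one, one_pow, one_mul]
  exact Int.natCast_natAbs _

end FA.ToralZeta

end
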